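/-
P-DIM (S20), subtask DIM-15: invariants and traces for finite group actions.
-/
import Mathlib
import Fermat.Agent.H19.Defs

set_option autoImplicit false

namespace Fermat.Agent.H25

open scoped MatrixGroups
open Fermat.Agent.H19

/-- Generic version: the space of functions on a finite `G`-set that are invariant under a
subgroup `H` has dimension the number of `H`-orbits. -/
theorem finrank_invariants_eq_card_orbits {G X : Type*} [Group G] [MulAction G X] [Finite X]
    (H : Subgroup G) (W : Submodule ℂ (X → ℂ))
    (hW : ∀ v, v ∈ W ↔ ∀ (h : H) (x : X), v (h • x) = v x) :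
    Module.finrank ℂ W = Nat.card (MulAction.orbitRel.Quotient H X) := by
  classical
  have : Fintype X := Fintype.ofFinite X
  have : Fintype (MulAction.orbitRel.Quotient H X) := Fintype.ofFinite _
  -- the linear equivalence between functions on the orbit space and invariant functions
  let toW : (MulAction.orbitRel.Quotient H X → ℂ) →ₗ[ℂ] W :=
    { toFun := fun f => ⟨fun x => f (Quotient.mk'' x), by
        rw [hW]
        intro h x
        have : (Quotient.mk'' (h • x) : MulAction.orbitRel.Quotient H X) = Quotient.mk'' x := by
          apply Quotient.sound'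
          exact ⟨h, rfl⟩
        simp only [this]⟩
      map_add' := fun f g => by ext x; rfl
      map_smul' := fun c f => by ext x; rfl }
  have hinj : Function.Injective toW := by
    intro f g hfg
    funext q
    induction q using Quotient.inductionOn' with
    | h x =>
      have := congrArg (fun w : W => (w : X → ℂ) x) hfg
      exact this
  have hsurj : Function.Surjective toW := by
    intro w
    have hw := (hW w.1).1 w.2
    refine ⟨fun q => Quotient.liftOn' q (w : X → ℂ) ?_, ?_⟩
    · intro a b hab
      obtain ⟨h, rfl⟩ := hab
      exact hw h b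
    · ext x
      rfl
  let e : (MulAction.orbitRel.Quotient H X → ℂ) ≃ₗ[ℂ] W :=
    LinearEquiv.ofBijective toW ⟨hinj, hsurj⟩
  rw [← e.finrank_eq, Module.finrank_pi, Nat.card_eq_fintype_card]

theorem finrank_T_invariants (N : ℕ) [NeZero N] (W : Submodule ℂ (Q N → ℂ))
    (hW : ∀ v, v ∈ W ↔ ∀ q, v (ModularGroup.T • q) = v q) :
    Module.finrank ℂ W =
      Nat.card (MulAction.orbitRel.Quotient (Subgroup.zpowers ModularGroup.T) (Q N)) := by
  apply finrank_invariants_eq_card_orbits (Subgroup.zpowers ModularGroup.T) W
  intro v
  rw [hW]
  constructor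
  · intro hv h x
    obtain ⟨h, n, rfl⟩ := h
    show v ((ModularGroup.T ^ n) • x) = v x
    -- invariance under all integer powers of `T`
    have hpos : ∀ (m : ℕ) (y : Q N), v ((ModularGroup.T ^ m) • y) = v y := by
      intro m
      induction m with
      | zero => intro y; simp
      | succ m ih =>
        intro y
        rw [pow_succ, mul_smul, ih, hv]
    have hinv : ∀ y : Q N, v (ModularGroup.T⁻¹ • y) = v y := by
      intro y
      have := hv (ModularGroup.T⁻¹ • y)
      rw [smul_inv_smul] at this
      exact this.symm
    have hneg : ∀ (m : ℕ) (y : Q N), v ((ModularGroup.T⁻¹ ^ m) • y) = v y := by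
      intro m
      induction m with
      | zero => intro y; simp
      | succ m ih =>
        intro y
        rw [pow_succ, mul_smul, ih, hinv]
    rcases Int.eq_nat_or_neg n with ⟨m, rfl | rfl⟩
    · rw [zpow_natCast]; exact hpos m x
    · rw [zpow_neg, zpow_natCast, ← inv_pow]; exact hneg m x
  · intro hv q
    exact hv ⟨ModularGroup.T, Subgroup.mem_zpowers _⟩ q

/-- Generic version: the trace of a permutation matrix is the number of fixed points. -/
theorem trace_perm_eq_card_fixed_generic {G X : Type*} [Group G] [MulAction G X] [Fintype X]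
    [DecidableEq X] (h : G) :
    Matrix.trace (Matrix.of fun q q' : X => if q' = h⁻¹ • q then (1 : ℂ) else 0) =
      (Nat.card {q : X // h • q = q} : ℂ) := by
  classical
  rw [Matrix.trace]
  simp only [Matrix.diag_apply, Matrix.of_apply]
  rw [Finset.sum_boole, Nat.card_eq_fintype_card, Fintype.card_subtype]
  congr 2
  ext q
  simp only [Finset.mem_filter, Finset.mem_univ, true_and]
  constructor
  · intro hq
    conv_lhs => rw [hq]
    exact smul_inv_smul h q
  · intro hq
    conv_rhs => rw [← hq]
    exact (inv_smul_smul h q).symm

theorem trace_perm_eq_card_fixed (N : ℕ) [NeZero N] (h : SL(2, ℤ)) :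
    Matrix.trace (Matrix.of fun q q' : Q N => if q' = h⁻¹ • q then (1 : ℂ) else 0) =
      (Nat.card {q : Q N // h • q = q} : ℂ) :=
  trace_perm_eq_card_fixed_generic h

theorem trace_eq_sum_of_eigenbasis {n : Type} [Fintype n] [DecidableEq n] (P B : Matrix n n ℂ)
    (d : n → ℂ) (hB : IsUnit B.det) (h : P * B = B * Matrix.diagonal d) :
    P.trace = ∑ j, d j := by
  have hP : P = B * Matrix.diagonal d * B⁻¹ := by
    rw [← h, Matrix.mul_assoc, Matrix.mul_nonsing_inv B hB, Matrix.mul_one]
  rw [hP, Matrix.trace_mul_cycle, Matrix.nonsing_inv_mul B hB, Matrix.one_mul,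
    Matrix.trace_diagonal]

end Fermat.Agent.H25
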