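/-
P-DEFRING (S53), subtask H78-ART-4bc, abstract part: the limit of a tower of surjections
from a complete noetherian local ring.
-/
import Mathlib
import Fermat.Agent.H56.Completeness
import Fermat.Prelude.Thm_IsLocalRing_isAdicComplete_of_module_finite

set_option autoImplicit false

noncomputable section

namespace Fermat.Agent.H25

open IsLocalRing

section abstract

variable {O : Type} [CommRing O]
variable {S : Type} [CommRing S] [Algebra O S]
variable {A : ℕ → Type} [∀ n, CommRing (A n)] [∀ n, Algebra O (A n)]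

/-- The shifted sequence of kernels: `K 0 = ⊤`, `K (n+1) = ker (π n)`. -/
def kerSeq (π : ∀ n, S →ₐ[O] A n) : ℕ → Ideal S
  | 0 => ⊤
  | (n + 1) => RingHom.ker (π n : S →+* A n)

/-- The intersection of all kernels. -/
def kerInf (π : ∀ n, S →ₐ[O] A n) : Ideal S := ⨅ n, RingHom.ker (π n : S →+* A n)

lemma kerInf_le (π : ∀ n, S →ₐ[O] A n) (n : ℕ) : kerInf π ≤ RingHom.ker (π n : S →+* A n) :=
  iInf_le _ n

lemma iInf_kerSeq (π : ∀ n, S →ₐ[O] A n) : (⨅ m, kerSeq π m) = kerInf π := by
  apply le_antisymm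
  · exact le_iInf fun n => iInf_le_of_le (n + 1) le_rfl
  · refine le_iInf fun m => ?_
    cases m with
    | zero => exact le_top
    | succ n => exact iInf_le _ n

variable (π : ∀ n, S →ₐ[O] A n) (tr : ∀ n, A (n + 1) →ₐ[O] A n)

lemma ker_succ_le_ker (hcompat : ∀ n s, tr n (π (n + 1) s) = π n s) (n : ℕ) :
    RingHom.ker (π (n + 1) : S →+* A (n + 1)) ≤ RingHom.ker (π n : S →+* A n) := by
  intro s hs
  rw [RingHom.mem_ker] at hs ⊢
  have h1 : π (n + 1) s = 0 := hs
  have := hcompat n s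
  rw [h1, map_zero] at this
  exact this.symm

lemma kerSeq_antitone (hcompat : ∀ n s, tr n (π (n + 1) s) = π n s) :
    Antitone (kerSeq π) := by
  apply antitone_nat_of_succ_le
  intro n
  cases n with
  | zero => exact le_top
  | succ n => exact ker_succ_le_ker π tr hcompat n

variable [IsLocalRing S]

lemma pow_le_kerSeq (hpow : ∀ n, maximalIdeal S ^ (n + 1) ≤ RingHom.ker (π n : S →+* A n))
    (n : ℕ) : maximalIdeal S ^ n ≤ kerSeq π n := by
  cases n with
  | zero => exact le_top
  | succ n => exact hpow n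

lemma kerSeq_le_sup
    (hstep : ∀ n, RingHom.ker (π n : S →+* A n) ≤
      RingHom.ker (π (n + 1) : S →+* A (n + 1)) ⊔ maximalIdeal S ^ (n + 1))
    (n : ℕ) : kerSeq π n ≤ kerSeq π (n + 1) ⊔ maximalIdeal S ^ n := by
  cases n with
  | zero => simp
  | succ n => exact hstep n

variable [IsAdicComplete (maximalIdeal S) S]

/-- `ker (π n) = kerInf ⊔ 𝔪 ^ (n+1)`. -/
lemma ker_eq_kerInf_sup (hcompat : ∀ n s, tr n (π (n + 1) s) = π n s)
    (hpow : ∀ n, maximalIdeal S ^ (n + 1) ≤ RingHom.ker (π n : S →+* A n))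
    (hstep : ∀ n, RingHom.ker (π n : S →+* A n) ≤
      RingHom.ker (π (n + 1) : S →+* A (n + 1)) ⊔ maximalIdeal S ^ (n + 1))
    (n : ℕ) : RingHom.ker (π n : S →+* A n) = kerInf π ⊔ maximalIdeal S ^ (n + 1) := by
  apply le_antisymm
  · have := Fermat.Agent.H56.mem_iInf_sup_pow_of_tower (maximalIdeal S) (kerSeq π)
      (kerSeq_antitone π tr hcompat) (pow_le_kerSeq π hpow) (kerSeq_le_sup π hstep) (n + 1)
    rw [iInf_kerSeq] at this
    exact this
  · exact sup_le (kerInf_le π n) (hpow n)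

/-- Compatible families lift to `S`. -/
lemma exists_lift_of_compatible (hsurj : ∀ n, Function.Surjective (π n))
    (hcompat : ∀ n s, tr n (π (n + 1) s) = π n s)
    (hpow : ∀ n, maximalIdeal S ^ (n + 1) ≤ RingHom.ker (π n : S →+* A n))
    (hstep : ∀ n, RingHom.ker (π n : S →+* A n) ≤
      RingHom.ker (π (n + 1) : S →+* A (n + 1)) ⊔ maximalIdeal S ^ (n + 1))
    (a : ∀ n, A n) (ha : ∀ n, tr n (a (n + 1)) = a n) :
    ∃ t : S, ∀ n, π n t = a n := by
  choose s hs using fun n => hsurj n (a n)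
  let s' : ℕ → S := fun m => match m with
    | 0 => s 0
    | (n + 1) => s n
  have hs' : ∀ m, s' (m + 1) - s' m ∈ kerSeq π m := by
    intro m
    cases m with
    | zero => exact Submodule.mem_top
    | succ n =>
      show s (n + 1) - s n ∈ RingHom.ker (π n : S →+* A n)
      rw [RingHom.mem_ker]
      show π n (s (n + 1) - s n) = 0
      rw [map_sub, hs n, ← hcompat n (s (n + 1)), hs (n + 1), ha n, sub_self]
  obtain ⟨t, ht⟩ := Fermat.Agent.H56.exists_limit_of_tower (maximalIdeal S) (kerSeq π)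
    (kerSeq_antitone π tr hcompat) (pow_le_kerSeq π hpow) (kerSeq_le_sup π hstep) s' hs'
  refine ⟨t, fun n => ?_⟩
  have h1 : t - s n ∈ RingHom.ker (π n : S →+* A n) := ht (n + 1)
  rw [RingHom.mem_ker] at h1
  have h2 : π n (t - s n) = 0 := h1
  rw [map_sub, sub_eq_zero, hs n] at h2
  exact h2

end abstract

end Fermat.Agent.H25

noncomputable section

namespace Fermat.Agent.H25

open IsLocalRing

section quotient

variable {O : Type} [CommRing O] [IsLocalRing O]
variable {S : Type} [CommRing S] [Algebra O S] [IsLocalRing S]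
variable {A : ℕ → Type} [∀ n, CommRing (A n)] [∀ n, Algebra O (A n)]
variable (π : ∀ n, S →ₐ[O] A n) (tr : ∀ n, A (n + 1) →ₐ[O] A n)

lemma kerInf_ne_top [Nontrivial (A 0)] : kerInf π ≠ ⊤ := by
  intro h
  have h1 : (1 : S) ∈ kerInf π := by rw [h]; exact Submodule.mem_top
  have h2 := kerInf_le π 0 h1
  rw [RingHom.mem_ker] at h2
  have h3 : π 0 1 = 0 := h2
  rw [map_one] at h3
  exact one_ne_zero h3

lemma nontrivial_quot [Nontrivial (A 0)] : Nontrivial (S ⧸ kerInf π) :=
  Ideal.Quotient.nontrivial_iff.mpr (kerInf_ne_top π)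

lemma isLocalRing_quot [Nontrivial (A 0)] : IsLocalRing (S ⧸ kerInf π) :=
  haveI := nontrivial_quot π
  IsLocalRing.of_surjective' (Ideal.Quotient.mk (kerInf π)) Ideal.Quotient.mk_surjective

lemma isLocalHom_mk [Nontrivial (A 0)] : IsLocalHom (Ideal.Quotient.mk (kerInf π)) :=
  haveI := nontrivial_quot π
  IsLocalHom.of_surjective (Ideal.Quotient.mk (kerInf π)) Ideal.Quotient.mk_surjective

lemma isLocalHom_algebraMap_quot [Nontrivial (A 0)] [IsLocalHom (algebraMap O S)] :
    IsLocalHom (algebraMap O (S ⧸ kerInf π)) := by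
  haveI := isLocalHom_mk π
  have : algebraMap O (S ⧸ kerInf π) = (Ideal.Quotient.mk (kerInf π)).comp (algebraMap O S) := rfl
  rw [this]
  infer_instance

lemma maximalIdeal_quot_eq [Nontrivial (A 0)] :
    letI := isLocalRing_quot π
    maximalIdeal (S ⧸ kerInf π) = (maximalIdeal S).map (Ideal.Quotient.mk (kerInf π)) := by
  letI := isLocalRing_quot π
  exact (IsLocalRing.map_maximalIdeal_of_surjective (Ideal.Quotient.mk (kerInf π))
    Ideal.Quotient.mk_surjective).symm

lemma isAdicComplete_quot [Nontrivial (A 0)] [IsNoetherianRing S]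
    [IsAdicComplete (maximalIdeal S) S] :
    letI := isLocalRing_quot π
    IsAdicComplete (maximalIdeal (S ⧸ kerInf π)) (S ⧸ kerInf π) := by
  letI := isLocalRing_quot π
  haveI : IsLocalHom (algebraMap S (S ⧸ kerInf π)) := isLocalHom_mk π
  haveI : Module.Finite S (S ⧸ kerInf π) :=
    Module.Finite.of_surjective (Ideal.Quotient.mkₐ S (kerInf π)).toLinearMap
      (Ideal.Quotient.mkₐ_surjective S (kerInf π))
  exact IsLocalRing.isAdicComplete_of_module_finite (𝒪 := S) (T := S ⧸ kerInf π)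

lemma residue_surjective_quot [Nontrivial (A 0)]
    (hres : Function.Surjective (IsLocalRing.residue S ∘ algebraMap O S)) :
    letI := isLocalRing_quot π
    Function.Surjective (IsLocalRing.residue (S ⧸ kerInf π) ∘ algebraMap O (S ⧸ kerInf π)) := by
  letI := isLocalRing_quot π
  haveI := isLocalHom_mk π
  intro y
  obtain ⟨r, rfl⟩ := IsLocalRing.residue_surjective y
  obtain ⟨s, rfl⟩ := Ideal.Quotient.mk_surjective r
  obtain ⟨a, ha⟩ := hres (IsLocalRing.residue S s)
  refine ⟨a, ?_⟩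
  -- `s - algebraMap a` is in the maximal ideal of `S`
  have h1 : s - algebraMap O S a ∈ maximalIdeal S := by
    have : IsLocalRing.residue S (s - algebraMap O S a) = 0 := by
      rw [map_sub, sub_eq_zero]; exact ha.symm
    exact (IsLocalRing.residue_eq_zero_iff _).mp this
  have h2 : Ideal.Quotient.mk (kerInf π) (s - algebraMap O S a) ∈
      maximalIdeal (S ⧸ kerInf π) := by
    rw [maximalIdeal_quot_eq π]
    exact Ideal.mem_map_of_mem _ h1
  have h3 : IsLocalRing.residue (S ⧸ kerInf π)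
      (Ideal.Quotient.mk (kerInf π) (s - algebraMap O S a)) = 0 :=
    (IsLocalRing.residue_eq_zero_iff _).mpr h2
  rw [map_sub, map_sub, sub_eq_zero] at h3
  exact h3.symm

/-- The induced maps from the limit ring. -/
def plim (n : ℕ) : S ⧸ kerInf π →ₐ[O] A n :=
  Ideal.Quotient.liftₐ (kerInf π) (π n) (fun a ha => by
    have := kerInf_le π n ha
    rwa [RingHom.mem_ker] at this)

@[simp] lemma plim_mk (n : ℕ) (s : S) : plim π n (Ideal.Quotient.mk (kerInf π) s) = π n s := rfl

lemma plim_surjective (hsurj : ∀ n, Function.Surjective (π n)) (n : ℕ) :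
    Function.Surjective (plim π n) := by
  intro a
  obtain ⟨s, rfl⟩ := hsurj n a
  exact ⟨Ideal.Quotient.mk _ s, rfl⟩

lemma ker_plim [Nontrivial (A 0)] [IsAdicComplete (maximalIdeal S) S]
    (hcompat : ∀ n s, tr n (π (n + 1) s) = π n s)
    (hpow : ∀ n, maximalIdeal S ^ (n + 1) ≤ RingHom.ker (π n : S →+* A n))
    (hstep : ∀ n, RingHom.ker (π n : S →+* A n) ≤
      RingHom.ker (π (n + 1) : S →+* A (n + 1)) ⊔ maximalIdeal S ^ (n + 1))
    (n : ℕ) :
    letI := isLocalRing_quot π
    RingHom.ker (plim π n : S ⧸ kerInf π →+* A n) = maximalIdeal (S ⧸ kerInf π) ^ (n + 1) := by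
  letI := isLocalRing_quot π
  rw [maximalIdeal_quot_eq π, ← Ideal.map_pow]
  ext r
  obtain ⟨s, rfl⟩ := Ideal.Quotient.mk_surjective r
  rw [RingHom.mem_ker]
  constructor
  · intro h
    have h1 : π n s = 0 := h
    have h2 : s ∈ RingHom.ker (π n : S →+* A n) := by rw [RingHom.mem_ker]; exact h1
    rw [ker_eq_kerInf_sup π tr hcompat hpow hstep n] at h2
    obtain ⟨j, hj, m, hm, rfl⟩ := Submodule.mem_sup.mp h2
    rw [map_add, Ideal.Quotient.eq_zero_iff_mem.mpr hj, zero_add]
    exact Ideal.mem_map_of_mem _ hm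
  · intro h
    obtain ⟨m, hm, hms⟩ := (Ideal.mem_map_iff_of_surjective _ Ideal.Quotient.mk_surjective).mp h
    rw [← hms]
    show π n m = 0
    have := hpow n hm
    rwa [RingHom.mem_ker] at this

lemma exists_of_compatible [IsAdicComplete (maximalIdeal S) S]
    (hsurj : ∀ n, Function.Surjective (π n))
    (hcompat : ∀ n s, tr n (π (n + 1) s) = π n s)
    (hpow : ∀ n, maximalIdeal S ^ (n + 1) ≤ RingHom.ker (π n : S →+* A n))
    (hstep : ∀ n, RingHom.ker (π n : S →+* A n) ≤
      RingHom.ker (π (n + 1) : S →+* A (n + 1)) ⊔ maximalIdeal S ^ (n + 1))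
    (a : ∀ n, A n) (ha : ∀ n, tr n (a (n + 1)) = a n) :
    ∃ r : S ⧸ kerInf π, ∀ n, plim π n r = a n := by
  obtain ⟨t, ht⟩ := exists_lift_of_compatible π tr hsurj hcompat hpow hstep a ha
  exact ⟨Ideal.Quotient.mk _ t, fun n => ht n⟩

end quotient

end Fermat.Agent.H25
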