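/-
P-DEFRING (S53), subtask H78-ART-4bc, tower-specific part: the limit datum of a tower.
-/
import Mathlib
import Fermat.Agent.H78.ARTDefs2
import Fermat.Agent.H12.Art1
import Fermat.Agent.H64.MvPSComplete
import Fermat.Agent.H25.LimitAbstract

set_option autoImplicit false

noncomputable section

namespace Fermat.Agent.H25

open IsLocalRing Fermat.Agent.H78

section powerSeries

variable {O : Type} [CommRing O] [IsLocalRing O] {σ : Type}

/-- `O → O⟦σ⟧` is a local homomorphism. -/
lemma isLocalHom_algebraMap_mvPowerSeries :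
    IsLocalHom (algebraMap O (MvPowerSeries σ O)) := by
  constructor
  intro a ha
  have h1 : IsUnit (MvPowerSeries.constantCoeff (σ := σ) (R := O) (algebraMap O _ a)) :=
    ha.map _
  rw [MvPowerSeries.algebraMap_apply] at h1
  simpa using h1

/-- The residue field of `O⟦σ⟧` is that of `O`. -/
lemma residue_surjective_mvPowerSeries :
    Function.Surjective
      (IsLocalRing.residue (MvPowerSeries σ O) ∘ algebraMap O (MvPowerSeries σ O)) := by
  intro y
  obtain ⟨f, rfl⟩ := IsLocalRing.residue_surjective y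
  refine ⟨MvPowerSeries.constantCoeff f, ?_⟩
  simp only [Function.comp_apply]
  rw [← sub_eq_zero, ← map_sub, IsLocalRing.residue_eq_zero_iff, mem_maximalIdeal,
    mem_nonunits_iff, MvPowerSeries.isUnit_iff_constantCoeff]
  rw [MvPowerSeries.algebraMap_apply]
  simp

end powerSeries


section tower

variable {O : Type} [CommRing O] [IsDomain O] [IsDiscreteValuationRing O]
  [IsAdicComplete (maximalIdeal O) O] [Finite (ResidueField O)] {X : Type} {c : X → O}
  {P : PointPred O X}

/-- The levels of a tower are local rings. -/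
lemma isLocalRing_lvl (T : Tower c P) (n : ℕ) : IsLocalRing (MvPolynomial X O ⧸ T.𝔞 n) :=
  (T.adm n).choose

lemma baseIdeal_ne_top (c : X → O) : baseIdeal c ≠ ⊤ := by
  rw [Ne, Ideal.eq_top_iff_one, baseIdeal, RingHom.mem_ker, map_one]
  exact one_ne_zero

lemma tower_succ_le (T : Tower c P) (n : ℕ) : T.𝔞 (n + 1) ≤ T.𝔞 n :=
  T.least (n + 1) (T.𝔞 n) (T.adm n)
    (le_trans (Ideal.pow_le_pow_right (Nat.le_succ (n + 1))) (T.pow_le n))

lemma maximalIdeal_lvl (hP : IsProRepresentablePred O c P) (T : Tower c P) (n : ℕ) :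
    letI := isLocalRing_lvl T n
    maximalIdeal (MvPolynomial X O ⧸ T.𝔞 n) = (baseIdeal c).map (Ideal.Quotient.mk (T.𝔞 n)) :=
  Fermat.Agent.H12.Admissible.maximalIdeal_eq hP (T.adm n)

lemma maximalIdeal_lvl_pow (hP : IsProRepresentablePred O c P) (T : Tower c P) (n : ℕ) :
    letI := isLocalRing_lvl T n
    maximalIdeal (MvPolynomial X O ⧸ T.𝔞 n) ^ (n + 1) = ⊥ := by
  letI := isLocalRing_lvl T n
  rw [maximalIdeal_lvl hP T n, ← Ideal.map_pow, eq_bot_iff]
  refine le_trans (Ideal.map_mono (T.pow_le n)) ?_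
  rw [Ideal.map_quotient_self]

/-- `𝔞 n = 𝔞 (n+1) + 𝔟^(n+1)`. -/
lemma tower_eq_sup (hP : IsProRepresentablePred O c P) (T : Tower c P) (n : ℕ) :
    T.𝔞 n = T.𝔞 (n + 1) ⊔ baseIdeal c ^ (n + 1) := by
  apply le_antisymm
  · refine T.least n _ ?_ le_sup_right
    refine Fermat.Agent.H12.admissible_of_le hP (T.adm (n + 1)) le_sup_left ?_
    intro h
    have h1 : T.𝔞 (n + 1) ⊔ baseIdeal c ^ (n + 1) ≤ baseIdeal c :=
      sup_le (Fermat.Agent.H12.Admissible.le_baseIdeal hP (T.adm (n + 1)))
        (Ideal.pow_le_self (Nat.succ_ne_zero n))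
    rw [h] at h1
    exact baseIdeal_ne_top c (top_le_iff.mp h1)
  · exact sup_le (tower_succ_le T n) (T.pow_le n)

/-- The shifted coordinates `X_i - c_i` in the `n`-th level. -/
def tcoord (T : Tower c P) (n : ℕ) : T.F → MvPolynomial X O ⧸ T.𝔞 n :=
  fun i => taut (T.𝔞 n) i - algebraMap O _ (c i)

lemma tcoord_mem (hP : IsProRepresentablePred O c P) (T : Tower c P) (n : ℕ) (i : T.F) :
    letI := isLocalRing_lvl T n
    tcoord T n i ∈ maximalIdeal (MvPolynomial X O ⧸ T.𝔞 n) := by
  letI := isLocalRing_lvl T n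
  exact hP.red (taut (T.𝔞 n)) (T.adm n).choose_spec.2 i

/-- Evaluation of polynomials at the shifted coordinates. -/
def evT (T : Tower c P) (n : ℕ) : MvPolynomial T.F O →ₐ[O] MvPolynomial X O ⧸ T.𝔞 n :=
  MvPolynomial.aeval (tcoord T n)

@[simp] lemma evT_X (T : Tower c P) (n : ℕ) (i : T.F) :
    evT T n (MvPolynomial.X i) = tcoord T n i := by
  simp [evT]

lemma evT_surjective (T : Tower c P) (n : ℕ) : Function.Surjective (evT T n) := by
  have h : (evT T n).range = ⊤ := by
    rw [eq_top_iff, ← T.gen n]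
    refine Algebra.adjoin_le ?_
    rintro _ ⟨f, hf, rfl⟩
    have : taut (T.𝔞 n) f = evT T n (MvPolynomial.X ⟨f, hf⟩ + MvPolynomial.C (c f)) := by
      rw [map_add, evT_X]
      simp [tcoord, evT]
    rw [this]
    exact ⟨_, rfl⟩
  intro y
  have : y ∈ (evT T n).range := by rw [h]; exact Algebra.mem_top
  exact this

lemma evT_eq_zero (hP : IsProRepresentablePred O c P) (T : Tower c P) (n : ℕ)
    (p : MvPolynomial T.F O) (hp : p ∈ MvPolynomial.idealOfVars T.F O ^ (n + 1)) :
    evT T n p = 0 := by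
  letI := isLocalRing_lvl T n
  have h1 : (MvPolynomial.idealOfVars T.F O).map (evT T n : MvPolynomial T.F O →+* _) ≤
      maximalIdeal (MvPolynomial X O ⧸ T.𝔞 n) := by
    rw [MvPolynomial.idealOfVars, Ideal.map_span, Ideal.span_le]
    rintro _ ⟨_, ⟨i, rfl⟩, rfl⟩
    show (evT T n) (MvPolynomial.X i) ∈ _
    rw [evT_X]
    exact tcoord_mem hP T n i
  have h2 : (evT T n : MvPolynomial T.F O →+* MvPolynomial X O ⧸ T.𝔞 n) p ∈
      ((MvPolynomial.idealOfVars T.F O) ^ (n + 1)).map
        (evT T n : MvPolynomial T.F O →+* MvPolynomial X O ⧸ T.𝔞 n) :=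
    Ideal.mem_map_of_mem (evT T n : MvPolynomial T.F O →+* MvPolynomial X O ⧸ T.𝔞 n) hp
  rw [Ideal.map_pow] at h2
  have h3 := Ideal.pow_right_mono h1 (n + 1) h2
  rw [maximalIdeal_lvl_pow hP T n] at h3
  exact (Submodule.mem_bot _).mp h3

/-- The maps from the power series ring to the levels. -/
def piT (hP : IsProRepresentablePred O c P) (T : Tower c P) (n : ℕ) :
    MvPowerSeries T.F O →ₐ[O] MvPolynomial X O ⧸ T.𝔞 n :=
  { toRingHom := (Ideal.Quotient.lift (MvPolynomial.idealOfVars T.F O ^ (n + 1))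
        (evT T n : MvPolynomial T.F O →+* _) (evT_eq_zero hP T n)).comp
        (MvPowerSeries.truncTotalAlgHom T.F O (n + 1) : MvPowerSeries T.F O →+* _)
    commutes' := by
      classical
      intro a
      show evT T n (MvPowerSeries.truncTotal (n + 1) (algebraMap O (MvPowerSeries T.F O) a)) = _
      have : MvPowerSeries.truncTotal (n + 1) (algebraMap O (MvPowerSeries T.F O) a) =
          MvPolynomial.C a := by
        ext x
        rw [MvPowerSeries.coeff_truncTotal_eq_ite, MvPowerSeries.algebraMap_apply,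
          MvPolynomial.coeff_C, MvPowerSeries.coeff_C]
        by_cases hx : x = 0
        · subst hx; simp
        · simp [hx, Ne.symm hx]
      rw [this]
      simp [evT] }

lemma piT_apply (hP : IsProRepresentablePred O c P) (T : Tower c P) (n : ℕ)
    (f : MvPowerSeries T.F O) :
    piT hP T n f = evT T n (MvPowerSeries.truncTotal (n + 1) f) := by
  show (Ideal.Quotient.lift (MvPolynomial.idealOfVars T.F O ^ (n + 1))
        (evT T n : MvPolynomial T.F O →+* MvPolynomial X O ⧸ T.𝔞 n) (evT_eq_zero hP T n))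
      ((MvPowerSeries.truncTotalAlgHom T.F O (n + 1)) f) = _
  rw [MvPowerSeries.truncTotalAlgHom_apply]
  rfl

lemma piT_coe (hP : IsProRepresentablePred O c P) (T : Tower c P) (n : ℕ)
    (p : MvPolynomial T.F O) :
    piT hP T n (p : MvPowerSeries T.F O) = evT T n p := by
  rw [piT_apply, ← sub_eq_zero, ← map_sub]
  apply evT_eq_zero hP T n
  rw [MvPolynomial.mem_pow_idealOfVars_iff']
  intro x hx
  rw [MvPolynomial.coeff_sub, sub_eq_zero, MvPowerSeries.coeff_truncTotal _ hx,
    MvPolynomial.coeff_coe]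

lemma piT_surjective (hP : IsProRepresentablePred O c P) (T : Tower c P) (n : ℕ) :
    Function.Surjective (piT hP T n) := by
  intro y
  obtain ⟨p, rfl⟩ := evT_surjective T n y
  exact ⟨p, piT_coe hP T n p⟩

/-- The transition maps. -/
def trT (T : Tower c P) (n : ℕ) :
    (MvPolynomial X O ⧸ T.𝔞 (n + 1)) →ₐ[O] (MvPolynomial X O ⧸ T.𝔞 n) :=
  Ideal.Quotient.factorₐ O (tower_succ_le T n)

@[simp] lemma trT_mk (T : Tower c P) (n : ℕ) (p : MvPolynomial X O) :
    trT T n (Ideal.Quotient.mk _ p) = Ideal.Quotient.mk _ p := rfl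

lemma trT_taut (T : Tower c P) (n : ℕ) (f : X) :
    trT T n (taut (T.𝔞 (n + 1)) f) = taut (T.𝔞 n) f := rfl

lemma trT_evT (T : Tower c P) (n : ℕ) (p : MvPolynomial T.F O) :
    trT T n (evT T (n + 1) p) = evT T n p := by
  have : (trT T n).comp (evT T (n + 1)) = evT T n := by
    apply MvPolynomial.algHom_ext
    intro i
    simp only [AlgHom.comp_apply, evT_X, tcoord, map_sub, trT_taut, AlgHom.commutes]
  exact congrArg (fun φ => φ p) this

lemma piT_compat (hP : IsProRepresentablePred O c P) (T : Tower c P) (n : ℕ)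
    (s : MvPowerSeries T.F O) : trT T n (piT hP T (n + 1) s) = piT hP T n s := by
  rw [piT_apply, piT_apply, trT_evT, ← sub_eq_zero, ← map_sub]
  apply evT_eq_zero hP T n
  exact MvPowerSeries.truncTotal_sub_truncTotal_mem_pow_idealOfVars (Nat.le_succ _) le_rfl s

lemma map_piT_maximalIdeal (hP : IsProRepresentablePred O c P) (T : Tower c P) (n : ℕ) :
    letI := isLocalRing_lvl T n
    (maximalIdeal (MvPowerSeries T.F O)).map
        (piT hP T n : MvPowerSeries T.F O →+* MvPolynomial X O ⧸ T.𝔞 n) =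
      maximalIdeal (MvPolynomial X O ⧸ T.𝔞 n) := by
  letI := isLocalRing_lvl T n
  exact IsLocalRing.map_maximalIdeal_of_surjective _ (piT_surjective hP T n)

lemma piT_pow_le (hP : IsProRepresentablePred O c P) (T : Tower c P) (n : ℕ) :
    maximalIdeal (MvPowerSeries T.F O) ^ (n + 1) ≤
      RingHom.ker (piT hP T n : MvPowerSeries T.F O →+* MvPolynomial X O ⧸ T.𝔞 n) := by
  letI := isLocalRing_lvl T n
  intro s hs
  rw [RingHom.mem_ker]
  have h1 : (piT hP T n : MvPowerSeries T.F O →+* MvPolynomial X O ⧸ T.𝔞 n) s ∈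
      (maximalIdeal (MvPowerSeries T.F O) ^ (n + 1)).map
        (piT hP T n : MvPowerSeries T.F O →+* MvPolynomial X O ⧸ T.𝔞 n) :=
    Ideal.mem_map_of_mem _ hs
  rw [Ideal.map_pow, map_piT_maximalIdeal, maximalIdeal_lvl_pow hP T n] at h1
  exact (Submodule.mem_bot _).mp h1

lemma piT_step (hP : IsProRepresentablePred O c P) (T : Tower c P) (n : ℕ) :
    RingHom.ker (piT hP T n : MvPowerSeries T.F O →+* MvPolynomial X O ⧸ T.𝔞 n) ≤
      RingHom.ker (piT hP T (n + 1) :
          MvPowerSeries T.F O →+* MvPolynomial X O ⧸ T.𝔞 (n + 1)) ⊔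
        maximalIdeal (MvPowerSeries T.F O) ^ (n + 1) := by
  letI := isLocalRing_lvl T (n + 1)
  intro s hs
  rw [RingHom.mem_ker] at hs
  have hs' : piT hP T n s = 0 := hs
  have h1 : trT T n (piT hP T (n + 1) s) = 0 := by rw [piT_compat]; exact hs'
  obtain ⟨q, hq⟩ := Ideal.Quotient.mk_surjective (piT hP T (n + 1) s)
  have h2 : q ∈ T.𝔞 n := by
    rw [← hq, trT_mk] at h1
    exact Ideal.Quotient.eq_zero_iff_mem.mp h1
  rw [tower_eq_sup hP T n] at h2
  obtain ⟨a, ha, b, hb, rfl⟩ := Submodule.mem_sup.mp h2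
  have h3 : Ideal.Quotient.mk (T.𝔞 (n + 1)) b ∈
      (maximalIdeal (MvPowerSeries T.F O) ^ (n + 1)).map
        (piT hP T (n + 1) : MvPowerSeries T.F O →+* MvPolynomial X O ⧸ T.𝔞 (n + 1)) := by
    rw [Ideal.map_pow, map_piT_maximalIdeal, maximalIdeal_lvl hP T (n + 1), ← Ideal.map_pow]
    exact Ideal.mem_map_of_mem _ hb
  obtain ⟨u, hu, hub⟩ :=
    (Ideal.mem_map_iff_of_surjective _ (piT_surjective hP T (n + 1))).mp h3
  have hub' : piT hP T (n + 1) u = Ideal.Quotient.mk (T.𝔞 (n + 1)) b := hub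
  have h4 : piT hP T (n + 1) (s - u) = 0 := by
    rw [map_sub, ← hq, map_add, Ideal.Quotient.eq_zero_iff_mem.mpr ha, zero_add, sub_eq_zero]
    exact hub'.symm
  have : s = (s - u) + u := by ring
  rw [this]
  exact Submodule.add_mem_sup (RingHom.mem_ker.mpr h4) hu

/-- **ART-4bc**: the limit datum of a tower exists. -/
theorem nonempty_limitData (hP : IsProRepresentablePred O c P) (T : Tower c P) :
    Nonempty (LimitData T) := by
  classical
  letI : ∀ n, IsLocalRing (MvPolynomial X O ⧸ T.𝔞 n) := isLocalRing_lvl T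
  haveI : IsAdicComplete (maximalIdeal (MvPowerSeries T.F O)) (MvPowerSeries T.F O) :=
    Fermat.Agent.H64.mvPowerSeries_isAdicComplete_maximalIdeal
  haveI : IsLocalHom (algebraMap O (MvPowerSeries T.F O)) := isLocalHom_algebraMap_mvPowerSeries
  have hsurj := piT_surjective hP T
  have hcompat := piT_compat hP T
  have hpow := piT_pow_le hP T
  have hstep := piT_step hP T
  letI : IsLocalRing (MvPowerSeries T.F O ⧸ kerInf (piT hP T)) := isLocalRing_quot (piT hP T)
  haveI : IsAdicComplete (maximalIdeal (MvPowerSeries T.F O ⧸ kerInf (piT hP T)))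
      (MvPowerSeries T.F O ⧸ kerInf (piT hP T)) := isAdicComplete_quot (piT hP T)
  haveI : IsLocalHom (algebraMap O (MvPowerSeries T.F O ⧸ kerInf (piT hP T))) :=
    isLocalHom_algebraMap_quot (piT hP T)
  have hx : ∀ f : X, ∃ r : MvPowerSeries T.F O ⧸ kerInf (piT hP T),
      ∀ n, plim (piT hP T) n r = taut (T.𝔞 n) f := fun f =>
    exists_of_compatible (piT hP T) (trT T) hsurj hcompat hpow hstep
      (fun n => taut (T.𝔞 n) f) (fun n => trT_taut T n f)
  choose x hx using hx
  exact ⟨{ R := MvPowerSeries T.F O ⧸ kerInf (piT hP T)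
           residue_surjective :=
             residue_surjective_quot (piT hP T) residue_surjective_mvPowerSeries
           p := plim (piT hP T)
           p_surjective := plim_surjective (piT hP T) hsurj
           ker_p := ker_plim (piT hP T) (trT T) hcompat hpow hstep
           x := x
           p_x := fun n f => hx f n }⟩

end tower

end Fermat.Agent.H25
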